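/-
P-CFT / [HASSE], row 954 HS-G (helper58): conjugation acts trivially on `H²`, cochain form.

For a Brauer cocycle `c` of `G_K`, `g ∈ G_K` and `E ≥ K`, `E' = g E`: if `res_E c = d b` with `b`
a level cochain, then `res_{E'} c = d b'` with
`b' y' = g (b (g⁻¹ y' g)) / t (g⁻¹ y' g)`, `t x = c (g, x) / c (g x g⁻¹, g)`.
-/
import Fermat.Agent.H97.Hasse.Interfaces

set_option autoImplicit false

namespace Fermat.Agent.H58.Hasse

open Fermat.Agent.H13.Cft Fermat.Agent.H78.CFT Fermat.Agent.H97.Hasse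

noncomputable section

theorem cjc_actU_mul (σ τ : Qb ≃ₐ[ℚ] Qb) (u : Qbˣ) : actU (σ * τ) u = actU σ (actU τ u) := by
  apply Units.ext
  rfl

/-- Conjugation `y' ↦ g⁻¹ y' g` from `G_{g E}` to `G_E`. -/
def cjcHom (g : Qb ≃ₐ[ℚ] Qb) (E E' : IntermediateField ℚ Qb)
    (h : E' = E.map ((g : Qb ≃ₐ[ℚ] Qb) : Qb →ₐ[ℚ] Qb)) :
    E'.fixingSubgroup →* E.fixingSubgroup where
  toFun y := ⟨g⁻¹ * (y : Qb ≃ₐ[ℚ] Qb) * g, by
    rw [IntermediateField.mem_fixingSubgroup_iff]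
    intro e he
    have h1 : g e ∈ E' := by
      rw [h]
      exact ⟨e, he, rfl⟩
    have h2 : (y : Qb ≃ₐ[ℚ] Qb) (g e) = g e :=
      (IntermediateField.mem_fixingSubgroup_iff E' _).mp y.2 _ h1
    show g⁻¹ ((y : Qb ≃ₐ[ℚ] Qb) (g e)) = e
    rw [h2]
    exact g.symm_apply_apply e⟩
  map_one' := by
    apply Subtype.ext
    show g⁻¹ * 1 * g = 1
    group
  map_mul' y z := by
    apply Subtype.ext
    show g⁻¹ * ((y : Qb ≃ₐ[ℚ] Qb) * (z : Qb ≃ₐ[ℚ] Qb)) * g =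
      (g⁻¹ * (y : Qb ≃ₐ[ℚ] Qb) * g) * (g⁻¹ * (z : Qb ≃ₐ[ℚ] Qb) * g)
    group

theorem coe_cjcHom (g : Qb ≃ₐ[ℚ] Qb) (E E' : IntermediateField ℚ Qb)
    (h : E' = E.map ((g : Qb ≃ₐ[ℚ] Qb) : Qb →ₐ[ℚ] Qb)) (y : E'.fixingSubgroup) :
    ((cjcHom g E E' h y : E.fixingSubgroup) : Qb ≃ₐ[ℚ] Qb) = g⁻¹ * (y : Qb ≃ₐ[ℚ] Qb) * g := rfl

theorem cjcHom_surjective (g : Qb ≃ₐ[ℚ] Qb) (E E' : IntermediateField ℚ Qb)
    (h : E' = E.map ((g : Qb ≃ₐ[ℚ] Qb) : Qb →ₐ[ℚ] Qb)) :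
    Function.Surjective (cjcHom g E E' h) := by
  intro x
  refine ⟨⟨g * (x : Qb ≃ₐ[ℚ] Qb) * g⁻¹, ?_⟩, ?_⟩
  · rw [IntermediateField.mem_fixingSubgroup_iff]
    intro e' he'
    rw [h] at he'
    obtain ⟨e, he, rfl⟩ := he'
    have h2 : (x : Qb ≃ₐ[ℚ] Qb) e = e :=
      (IntermediateField.mem_fixingSubgroup_iff E _).mp x.2 _ he
    show g ((x : Qb ≃ₐ[ℚ] Qb) (g⁻¹ (g e))) = g e
    have h3 : g⁻¹ (g e) = e := g.symm_apply_apply e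
    rw [h3, h2]
  · apply Subtype.ext
    show g⁻¹ * (g * (x : Qb ≃ₐ[ℚ] Qb) * g⁻¹) * g = x
    group

/-- The correcting cochain `t x = c (g, x) / c (g x g⁻¹, g)`. -/
def cjcT {K : IntermediateField ℚ Qb} (c : K.fixingSubgroup × K.fixingSubgroup → Qbˣ)
    (g : K.fixingSubgroup) (x : K.fixingSubgroup) : Qbˣ :=
  c (g, x) / c (g * x * g⁻¹, g)

/-- The key cocycle identity:
`c (y', z') * (t y * y' (t z)) = g (c (y, z)) * t (y z)` for `y' = g y g⁻¹`, `z' = g z g⁻¹`. -/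
theorem cjc_key {K : IntermediateField ℚ Qb} {c : K.fixingSubgroup × K.fixingSubgroup → Qbˣ}
    (hc : IsMulCocycle₂E K c) (g y z : K.fixingSubgroup) :
    c (g * y * g⁻¹, g * z * g⁻¹) *
        (cjcT c g y * actU ((g * y * g⁻¹ : K.fixingSubgroup) : Qb ≃ₐ[ℚ] Qb) (cjcT c g z)) =
      actU (g : Qb ≃ₐ[ℚ] Qb) (c (y, z)) * cjcT c g (y * z) := by
  have h1 := hc g y z
  have h2 := hc (g * y * g⁻¹) g z
  have h3 := hc (g * y * g⁻¹) (g * z * g⁻¹) g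
  have e1 : g * y * g⁻¹ * g = g * y := by group
  have e2 : g * z * g⁻¹ * g = g * z := by group
  have e3 : g * y * g⁻¹ * (g * z * g⁻¹) = g * (y * z) * g⁻¹ := by group
  rw [e1] at h2
  rw [e2, e3] at h3
  unfold cjcT
  rw [map_div]
  set A := c (g * y, z)
  set B := c (g, y)
  set C := actU (g : Qb ≃ₐ[ℚ] Qb) (c (y, z))
  set D := c (g, y * z)
  set P := c (g * y * g⁻¹, g)
  set Q := actU ((g * y * g⁻¹ : K.fixingSubgroup) : Qb ≃ₐ[ℚ] Qb) (c (g, z))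
  set R := c (g * y * g⁻¹, g * z)
  set S := c (g * (y * z) * g⁻¹, g)
  set X := c (g * y * g⁻¹, g * z * g⁻¹)
  set T := actU ((g * y * g⁻¹ : K.fixingSubgroup) : Qb ≃ₐ[ℚ] Qb) (c (g * z * g⁻¹, g))
  -- h1 : A * B = C * D, h2 : A * P = Q * R, h3 : S * X = T * R
  have h1' : (A : Qb) * B = C * D := by
    have := congrArg Units.val h1
    simpa only [Units.val_mul] using this
  have h2' : (A : Qb) * P = Q * R := by
    have := congrArg Units.val h2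
    simpa only [Units.val_mul] using this
  have h3' : (S : Qb) * X = T * R := by
    have := congrArg Units.val h3
    simpa only [Units.val_mul] using this
  apply Units.ext
  simp only [Units.val_mul, Units.val_div_eq_div_val]
  have hB : (B : Qb) ≠ 0 := B.ne_zero
  have hP : (P : Qb) ≠ 0 := P.ne_zero
  have hQ : (Q : Qb) ≠ 0 := Q.ne_zero
  have hS : (S : Qb) ≠ 0 := S.ne_zero
  have hT : (T : Qb) ≠ 0 := T.ne_zero
  field_simp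
  linear_combination ((B : Qb) * Q) * h3' - ((T : Qb) * B) * h2' + ((T : Qb) * P) * h1'

/-- `t` is right-invariant under a normal level of `c`. -/
theorem cjcT_mul_of_mem {K : IntermediateField ℚ Qb}
    {c : K.fixingSubgroup × K.fixingSubgroup → Qbˣ} {Nc : Subgroup K.fixingSubgroup}
    (hNn : Nc.Normal)
    (hcN : ∀ g h, ∀ n ∈ Nc, ∀ m ∈ Nc, c (g * n, h * m) = c (g, h))
    (g x m : K.fixingSubgroup) (hm : m ∈ Nc) : cjcT c g (x * m) = cjcT c g x := by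
  unfold cjcT
  have h1 : c (g, x * m) = c (g, x) := by
    have := hcN g x 1 Nc.one_mem m hm
    rwa [mul_one] at this
  have h2 : c (g * (x * m) * g⁻¹, g) = c (g * x * g⁻¹, g) := by
    have hm' : g * m * g⁻¹ ∈ Nc := hNn.conj_mem m hm g
    have := hcN (g * x * g⁻¹) g (g * m * g⁻¹) hm' 1 Nc.one_mem
    rw [mul_one] at this
    rw [← this]
    congr 2
    group
  rw [h1, h2]

/-- The conjugate of a level of `G_E` is a level of `G_{g E}`. -/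
theorem cjc_comap_mem_lvl (g : Qb ≃ₐ[ℚ] Qb) (E E' : IntermediateField ℚ Qb)
    (h : E' = E.map ((g : Qb ≃ₐ[ℚ] Qb) : Qb →ₐ[ℚ] Qb)) {N : Subgroup E.fixingSubgroup}
    (hN : N ∈ (lvlE E).sets) : N.comap (cjcHom g E E' h) ∈ (lvlE E').sets := by
  obtain ⟨hNn, hNf, F, hF, hFN⟩ := hN
  refine ⟨hNn.comap _, ⟨?_⟩, F.map ((g : Qb ≃ₐ[ℚ] Qb) : Qb →ₐ[ℚ] Qb), ?_, ?_⟩
  · rw [Subgroup.index_comap_of_surjective _ (cjcHom_surjective g E E' h)]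
    exact hNf.index_ne_zero
  · exact Module.Finite.equiv
      (IntermediateField.equivMap F ((g : Qb ≃ₐ[ℚ] Qb) : Qb →ₐ[ℚ] Qb)).toLinearEquiv
  · intro n hn
    rw [Subgroup.mem_comap] at hn ⊢
    apply hFN
    rw [Subgroup.mem_comap, IntermediateField.mem_fixingSubgroup_iff]
    intro f hf
    have h1 : g f ∈ F.map ((g : Qb ≃ₐ[ℚ] Qb) : Qb →ₐ[ℚ] Qb) := ⟨f, hf, rfl⟩
    have h2 : (n : Qb ≃ₐ[ℚ] Qb) (g f) = g f :=
      (IntermediateField.mem_fixingSubgroup_iff _ _).mp hn _ h1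
    show g⁻¹ ((n : Qb ≃ₐ[ℚ] Qb) (g f)) = f
    rw [h2]
    exact g.symm_apply_apply f

/-- **[HS-G]** (row 954): conjugation acts trivially on `H²`, cochain form. -/
theorem conjCoboundary : ConjCoboundaryStatement := by
  intro K c hc g E E' hE hE' hmap hcob
  obtain ⟨b, ⟨N, hN, hbN⟩, hbc⟩ := hcob
  obtain ⟨Nc, hNc, hcN⟩ := hc.lvl
  have hNcn : Nc.Normal := (lvlE K).normal Nc hNc
  set φ := cjcHom (g : Qb ≃ₐ[ℚ] Qb) E E' hmap with hφ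
  refine ⟨fun y' => actU (g : Qb ≃ₐ[ℚ] Qb) (b (φ y')) / cjcT c g (incl hE (φ y')), ?_, ?_⟩
  · -- level
    obtain ⟨N', hN', hle⟩ := (lvlE E').directed _
      (cjc_comap_mem_lvl (g : Qb ≃ₐ[ℚ] Qb) E E' hmap hN) _ (comap_incl_mem_lvl hE' hNc)
    refine ⟨N', hN', fun y n hn => ?_⟩
    have hn1 : φ n ∈ N := Subgroup.mem_comap.mp (hle hn).1
    have hn2 : incl hE' n ∈ Nc := Subgroup.mem_comap.mp (hle hn).2
    have hn3 : incl hE (φ n) ∈ Nc := by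
      have : incl hE (φ n) = g⁻¹ * incl hE' n * g⁻¹⁻¹ := by
        apply Subtype.ext
        show (g : Qb ≃ₐ[ℚ] Qb)⁻¹ * (n : Qb ≃ₐ[ℚ] Qb) * (g : Qb ≃ₐ[ℚ] Qb) =
          (g : Qb ≃ₐ[ℚ] Qb)⁻¹ * (n : Qb ≃ₐ[ℚ] Qb) * ((g : Qb ≃ₐ[ℚ] Qb)⁻¹)⁻¹
        rw [inv_inv]
      rw [this]
      exact hNcn.conj_mem _ hn2 g⁻¹
    show actU (g : Qb ≃ₐ[ℚ] Qb) (b (φ (y * n))) / cjcT c g (incl hE (φ (y * n))) =
      actU (g : Qb ≃ₐ[ℚ] Qb) (b (φ y)) / cjcT c g (incl hE (φ y))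
    rw [map_mul, hbN _ _ hn1, map_mul, cjcT_mul_of_mem hNcn hcN g _ _ hn3]
  · -- the coboundary identity
    rintro ⟨y', z'⟩
    have hbc' := hbc (φ y', φ z')
    rw [resCochain₂_apply] at hbc'
    have key := cjc_key hc.cocycle g (incl hE (φ y')) (incl hE (φ z'))
    have ey : g * incl hE (φ y') * g⁻¹ = incl hE' y' := by
      apply Subtype.ext
      show (g : Qb ≃ₐ[ℚ] Qb) * ((g : Qb ≃ₐ[ℚ] Qb)⁻¹ * (y' : Qb ≃ₐ[ℚ] Qb) * (g : Qb ≃ₐ[ℚ] Qb)) *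
        (g : Qb ≃ₐ[ℚ] Qb)⁻¹ = (y' : Qb ≃ₐ[ℚ] Qb)
      group
    have ez : g * incl hE (φ z') * g⁻¹ = incl hE' z' := by
      apply Subtype.ext
      show (g : Qb ≃ₐ[ℚ] Qb) * ((g : Qb ≃ₐ[ℚ] Qb)⁻¹ * (z' : Qb ≃ₐ[ℚ] Qb) * (g : Qb ≃ₐ[ℚ] Qb)) *
        (g : Qb ≃ₐ[ℚ] Qb)⁻¹ = (z' : Qb ≃ₐ[ℚ] Qb)
      group
    rw [ey, ez, coe_incl] at key
    rw [resCochain₂_apply]
    have hconj : actU (y' : Qb ≃ₐ[ℚ] Qb) (actU (g : Qb ≃ₐ[ℚ] Qb) (b (φ z'))) =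
        actU (g : Qb ≃ₐ[ℚ] Qb) (actU ((φ y' : E.fixingSubgroup) : Qb ≃ₐ[ℚ] Qb) (b (φ z'))) := by
      rw [← cjc_actU_mul, ← cjc_actU_mul]
      have e : (y' : Qb ≃ₐ[ℚ] Qb) * (g : Qb ≃ₐ[ℚ] Qb) =
          (g : Qb ≃ₐ[ℚ] Qb) * ((φ y' : E.fixingSubgroup) : Qb ≃ₐ[ℚ] Qb) := by
        show (y' : Qb ≃ₐ[ℚ] Qb) * (g : Qb ≃ₐ[ℚ] Qb) =
          (g : Qb ≃ₐ[ℚ] Qb) * ((g : Qb ≃ₐ[ℚ] Qb)⁻¹ * (y' : Qb ≃ₐ[ℚ] Qb) * (g : Qb ≃ₐ[ℚ] Qb))
        group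
      rw [e]
    have hbc'' := congrArg (actU (g : Qb ≃ₐ[ℚ] Qb)) hbc'
    simp only [mulD₁E, map_div, map_mul] at hbc''
    show actU (y' : Qb ≃ₐ[ℚ] Qb)
          (actU (g : Qb ≃ₐ[ℚ] Qb) (b (φ z')) / cjcT c g (incl hE (φ z'))) *
        (actU (g : Qb ≃ₐ[ℚ] Qb) (b (φ y')) / cjcT c g (incl hE (φ y'))) /
        (actU (g : Qb ≃ₐ[ℚ] Qb) (b (φ (y' * z'))) / cjcT c g (incl hE (φ (y' * z')))) =
      c (incl hE' y', incl hE' z')
    rw [map_div, hconj, map_mul φ, map_mul (incl hE)]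
    set u := actU (g : Qb ≃ₐ[ℚ] Qb) (actU ((φ y' : E.fixingSubgroup) : Qb ≃ₐ[ℚ] Qb) (b (φ z')))
    set v := actU (g : Qb ≃ₐ[ℚ] Qb) (b (φ y'))
    set w := actU (g : Qb ≃ₐ[ℚ] Qb) (b (φ y' * φ z'))
    set ty := cjcT c g (incl hE (φ y'))
    set tz := actU (y' : Qb ≃ₐ[ℚ] Qb) (cjcT c g (incl hE (φ z')))
    set tyz := cjcT c g (incl hE (φ y') * incl hE (φ z'))
    set X := c (incl hE' y', incl hE' z')
    set Cg := actU (g : Qb ≃ₐ[ℚ] Qb) (c (incl hE (φ y'), incl hE (φ z')))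
    have h1' : (u : Qb) * v / w = Cg := by
      have := congrArg Units.val hbc''
      simpa only [Units.val_mul, Units.val_div_eq_div_val] using this
    have key' : (X : Qb) * (ty * tz) = Cg * tyz := by
      have := congrArg Units.val key
      simpa only [Units.val_mul] using this
    apply Units.ext
    simp only [Units.val_mul, Units.val_div_eq_div_val]
    have hw : (w : Qb) ≠ 0 := w.ne_zero
    have hty : (ty : Qb) ≠ 0 := ty.ne_zero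
    have htz : (tz : Qb) ≠ 0 := tz.ne_zero
    have htyz : (tyz : Qb) ≠ 0 := tyz.ne_zero
    field_simp at h1' ⊢
    linear_combination (tyz : Qb) * h1' - (w : Qb) * key'

end

end Fermat.Agent.H58.Hasse
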