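/-
P-CFT / [HASSE] HS-F helper pieces (helper58), requested by helper97 (msg 6098) for helper96.

* (F1) `mulTransfer`: finite-index transfer on multiplicative 2-cocycles. If `P ≤ G` has finite
  index, `c : G × G → M` is a multiplicative 2-cocycle and the restriction of `c` to `P` is the
  coboundary of a cochain on `P`, then `c ^ P.index` is a coboundary on `G`.
* (F2) `isMulCoboundary₂_of_coprime`: if `c ^ m` and `c ^ n` are coboundaries with `m`, `n`
  coprime, then `c` is a coboundary.
* `isMulCoboundary₂_of_restrict_of_pow`: the combination of the two: if `c ^ n` is a coboundary,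
  `c|_P` is a coboundary and `P.index` is prime to `n`, then `c` is a coboundary.
-/
import Fermat.Agent.H75.Coh2Transfer
import Fermat.Agent.H61.CFT.CyclicCocycle

set_option autoImplicit false
set_option linter.style.haveILetI false

noncomputable section

namespace Fermat.Agent.H58.Hasse

open groupCohomology

variable {G : Type*} {M : Type*} [Group G] [CommGroup M] [MulDistribMulAction G M]

/-- (F1) **Finite-index transfer for multiplicative 2-cocycles.** -/
theorem mulTransfer (P : Subgroup G) [P.FiniteIndex] (c : G × G → M)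
    (hc : IsMulCocycle₂ c)
    (hP : ∃ b : P → M, ∀ h j : P, (h : G) • b j / b (h * j) * b h = c ((h : G), (j : G))) :
    IsMulCoboundary₂ (fun x => c x ^ P.index) := by
  classical
  obtain ⟨b, hb⟩ := hP
  letI : Fintype (G ⧸ P) := Subgroup.fintypeQuotientOfFiniteIndex
  let ρ : Representation ℤ G (Additive M) := Representation.ofMulDistribMulAction G M
  let c' : G × G → Additive M := fun x => Additive.ofMul (c x)
  let b' : G → Additive M := fun g =>
    if hg : g ∈ P then Additive.ofMul (b ⟨g, hg⟩) else 0
  have hc' : ∀ g h j : G, c' (g * h, j) + c' (g, h) = ρ g (c' (h, j)) + c' (g, h * j) := by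
    intro g h j
    have := hc g h j
    simp only [c', ρ, Representation.ofMulDistribMulAction_apply_apply, toMul_ofMul, ← ofMul_mul]
    exact congrArg Additive.ofMul this
  have hb' : ∀ h ∈ P, ∀ j ∈ P, c' (h, j) = ρ h (b' j) - b' (h * j) + b' h := by
    intro h hh j hj
    have := hb ⟨h, hh⟩ ⟨j, hj⟩
    simp only [c', b', ρ, hh, hj, P.mul_mem hh hj, dif_pos,
      Representation.ofMulDistribMulAction_apply_apply, toMul_ofMul, ← ofMul_mul, ← ofMul_div]
    exact congrArg Additive.ofMul this.symm
  obtain ⟨a, ha⟩ := Fermat.Agent.H75.Coh2.exists_cobound_card_smul ρ P c' hc' b' hb'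
  refine ⟨fun g => (a g).toMul, fun g h => ?_⟩
  have h1 := ha g h
  have hcard : Fintype.card (G ⧸ P) = P.index := by
    rw [Subgroup.index_eq_card, Nat.card_eq_fintype_card]
  rw [hcard] at h1
  have h2 := congrArg Additive.toMul h1
  simpa only [c', ρ, Representation.ofMulDistribMulAction_apply_apply, toMul_add, toMul_sub,
    toMul_ofMul, toMul_nsmul] using h2

/-- (F2) **Coprime exponents.** -/
theorem isMulCoboundary₂_of_coprime (c : G × G → M) (m n : ℕ) (hmn : m.Coprime n)
    (hm : IsMulCoboundary₂ (fun x => c x ^ m)) (hn : IsMulCoboundary₂ (fun x => c x ^ n)) :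
    IsMulCoboundary₂ c := by
  have hbez : (m : ℤ) * Nat.gcdA m n + (n : ℤ) * Nat.gcdB m n = 1 := by
    have := Nat.gcd_eq_gcd_ab m n
    rw [hmn.gcd_eq_one] at this
    simpa using this.symm
  have h1 := Fermat.Agent.H61.CFT.isMulCoboundary₂_zpow hm (Nat.gcdA m n)
  have h2 := Fermat.Agent.H61.CFT.isMulCoboundary₂_zpow hn (Nat.gcdB m n)
  refine Fermat.Agent.H61.CFT.isMulCoboundary₂_congr (fun p => ?_)
    (Fermat.Agent.H61.CFT.isMulCoboundary₂_mul h1 h2)
  rw [← zpow_natCast, ← zpow_natCast, ← zpow_mul, ← zpow_mul, ← zpow_add, hbez, zpow_one]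

/-- Combination of (F1) and (F2): a 2-cocycle killed by `n` whose restriction to a subgroup of
index prime to `n` is a coboundary is itself a coboundary. -/
theorem isMulCoboundary₂_of_restrict_of_pow (P : Subgroup G) [P.FiniteIndex] (c : G × G → M)
    (hc : IsMulCocycle₂ c) (n : ℕ) (hn : IsMulCoboundary₂ (fun x => c x ^ n))
    (hcop : P.index.Coprime n)
    (hP : ∃ b : P → M, ∀ h j : P, (h : G) • b j / b (h * j) * b h = c ((h : G), (j : G))) :
    IsMulCoboundary₂ c :=
  isMulCoboundary₂_of_coprime c P.index n hcop (mulTransfer P c hc hP) hn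

end Fermat.Agent.H58.Hasse
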